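/-
Item 57 (E[p] via division polynomials), part 2: an abstract lemma on sequences.

`X k` plays the role of the x-coordinate of `k • P`, `b` the role of `ψ₂(P)`, and `Fs` the role of the
totally symmetric biquadratic form with
`(x(A+B) - t)(x(A-B) - t)(x(A) - x(B))² = Fs (x A) (x B) t`.
The sequence `wSeq X b` is defined from the `X k`; we prove the "elliptic net" relation (Claim A)
`(X (n+d) - X n) w(n+d)² w(n)² = - w(2n+d) w(d)` and deduce the even/odd recursions.
-/
import Mathlib.Algebra.Field.Basic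
import Mathlib.Tactic.FieldSimp
import Mathlib.Tactic.Ring
import Mathlib.Tactic.LinearCombination
import Mathlib.Tactic.Linarith
import Mathlib.NumberTheory.EllipticDivisibilitySequence

set_option autoImplicit false

namespace Fermat.Agent.Lib.Torsion.H11

variable {F : Type*} [Field F]

/-- The auxiliary sequence defined from the x-coordinates. -/
noncomputable def wSeq (X : ℕ → F) (b : F) : ℕ → F
  | 0 => 0
  | 1 => 1
  | 2 => b
  | (n + 3) => -(X (n + 2) - X 1) * (wSeq X b (n + 2)) ^ 2 / wSeq X b (n + 1)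

@[simp] lemma wSeq_zero (X : ℕ → F) (b : F) : wSeq X b 0 = 0 := by simp [wSeq]
@[simp] lemma wSeq_one (X : ℕ → F) (b : F) : wSeq X b 1 = 1 := by simp [wSeq]
@[simp] lemma wSeq_two (X : ℕ → F) (b : F) : wSeq X b 2 = b := by simp [wSeq]
lemma wSeq_add_three (X : ℕ → F) (b : F) (n : ℕ) :
    wSeq X b (n + 3) = -(X (n + 2) - X 1) * (wSeq X b (n + 2)) ^ 2 / wSeq X b (n + 1) := by
  simp [wSeq]

/-- Hypotheses of the sequence lemma. -/
structure SeqHyp (X : ℕ → F) (b : F) (M : ℕ) (Fs : F → F → F → F) : Prop where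
  b_ne : b ≠ 0
  two_le : 2 ≤ M
  sym12 : ∀ u v t, Fs u v t = Fs v u t
  sym23 : ∀ u v t, Fs u v t = Fs u t v
  ne : ∀ a c, 1 ≤ c → c < a → a + c ≤ M → X a ≠ X c
  rel : ∀ a c, 1 ≤ c → c < a → a + c ≤ M → ∀ t,
    (X (a + c) - t) * (X (a - c) - t) * (X a - X c) ^ 2 = Fs (X a) (X c) t
  dup : ∀ u, Fs u (X 1) (X 1) = (X 2 - u) * b ^ 2

namespace SeqHyp

variable {X : ℕ → F} {b : F} {M : ℕ} {Fs : F → F → F → F} (H : SeqHyp X b M Fs)
include H

lemma w_ne : ∀ k, 1 ≤ k → k ≤ M → wSeq X b k ≠ 0 := by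
  intro k
  induction k using Nat.strong_induction_on with
  | _ k ih =>
    intro h1 hM
    match k, h1, hM, ih with
    | 1, _, _, _ => simp
    | 2, _, _, _ => simpa using H.b_ne
    | (n + 3), _, hM, ih =>
      rw [wSeq_add_three]
      have h2 := ih (n + 2) (by omega) (by omega) (by omega)
      have h1 := ih (n + 1) (by omega) (by omega) (by omega)
      have hx : X (n + 2) ≠ X 1 := H.ne (n + 2) 1 le_rfl (by omega) (by omega)
      have hx' : X (n + 2) - X 1 ≠ 0 := sub_ne_zero.mpr hx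
      exact div_ne_zero (mul_ne_zero (neg_ne_zero.mpr hx') (pow_ne_zero 2 h2)) h1

/-- Claim A for `n = 1`, in the form `(X k - X 1) w(k)² = - w(k+1) w(k-1)`, for `k = j + 1`. -/
lemma claimA_one (j : ℕ) (hj : j + 1 ≤ M) :
    (X (j + 1) - X 1) * wSeq X b (j + 1) ^ 2 = -(wSeq X b (j + 2) * wSeq X b j) := by
  match j, hj with
  | 0, _ => simp
  | 1, _ =>
    have : wSeq X b 3 = -(X 2 - X 1) * b ^ 2 := by
      have := wSeq_add_three X b 0
      simpa using this
    rw [this]; simp; ring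
  | (n + 2), hj =>
    have h1 : wSeq X b (n + 2) ≠ 0 := H.w_ne (n + 2) (by omega) (by omega)
    have e : wSeq X b (n + 2 + 2) = -(X (n + 3) - X 1) * (wSeq X b (n + 3)) ^ 2 / wSeq X b (n + 2) :=
      wSeq_add_three X b (n + 1)
    rw [e]
    field_simp

/-- `rel` with explicit names for `a + c` and `a - c`. -/
lemma rel' (a c p q : ℕ) (hc : 1 ≤ c) (hp : p = a + c) (hq : q + c = a) (hq1 : 1 ≤ q)
    (hM : p ≤ M) (t : F) :
    (X p - t) * (X q - t) * (X a - X c) ^ 2 = Fs (X a) (X c) t := by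
  have hq' : q = a - c := by omega
  subst hp hq'
  exact H.rel a c hc (by omega) hM t

/-- Claim A for `n = 1` in division form. -/
lemma claimA_one' (k p q : ℕ) (hp : p = k + 1) (hq : q + 1 = k) (hk : k ≤ M) :
    X k - X 1 = -(wSeq X b p * wSeq X b q) / wSeq X b k ^ 2 := by
  subst hp hq
  have h := H.claimA_one q hk
  have hw : wSeq X b (q + 1) ≠ 0 := H.w_ne (q + 1) (by omega) hk
  rw [eq_div_iff (pow_ne_zero 2 hw)]
  linear_combination h

/-- **Claim A** (division form): `X m - X n = - w(m+n) w(m-n) / (w(m)² w(n)²)`. -/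
lemma claimA : ∀ n m p q : ℕ, 1 ≤ n → 1 ≤ q → p = m + n → q + n = m → p ≤ M + 1 →
    X m - X n = -(wSeq X b p * wSeq X b q) / (wSeq X b m ^ 2 * wSeq X b n ^ 2) := by
  intro n
  induction n using Nat.strong_induction_on with
  | _ n ih =>
    intro m p q hn hq hp hqm hpM
    match n, hn, ih with
    | 1, _, _ =>
      have := H.claimA_one' m p q hp (by omega) (by omega)
      rw [this]; simp
    | 2, _, _ =>
      -- m = q + 2, p = q + 4
      obtain rfl : m = q + 2 := by omega
      obtain rfl : p = q + 4 := by omega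
      have hR := H.rel' (q + 2) 1 (q + 3) (q + 1) le_rfl (by omega) (by omega) (by omega)
        (by omega) (X 1)
      rw [H.dup] at hR
      have hA := H.claimA_one' (q + 3) (q + 4) (q + 2) (by omega) (by omega) (by omega)
      have hC := H.claimA_one' (q + 2) (q + 3) (q + 1) (by omega) (by omega) (by omega)
      have w1 : wSeq X b (q + 1) ≠ 0 := H.w_ne _ (by omega) (by omega)
      have w2 : wSeq X b (q + 2) ≠ 0 := H.w_ne _ (by omega) (by omega)
      have w3 : wSeq X b (q + 3) ≠ 0 := H.w_ne _ (by omega) (by omega)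
      have hb : b ≠ 0 := H.b_ne
      have hB : X (q + 1) - X 1 = -(wSeq X b (q + 2) * wSeq X b q) / wSeq X b (q + 1) ^ 2 := by
        rcases Nat.eq_zero_or_pos q with h0 | h0
        · subst h0; simp
        · exact H.claimA_one' (q + 1) (q + 2) q (by omega) (by omega) (by omega)
      rw [hA, hB, hC] at hR
      have : X (q + 2) - X 2 = -((-(wSeq X b (q + 4) * wSeq X b (q + 2)) / wSeq X b (q + 3) ^ 2 *
          (-(wSeq X b (q + 2) * wSeq X b q) / wSeq X b (q + 1) ^ 2) *
          (-(wSeq X b (q + 3) * wSeq X b (q + 1)) / wSeq X b (q + 2) ^ 2) ^ 2) / b ^ 2) := by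
        rw [hR]; field_simp; ring
      rw [this, wSeq_two]
      field_simp
    | (k + 3), _, ih =>
      -- n = k + 3, previous n' = k + 2 and k + 1; m = q + k + 3
      obtain rfl : m = q + k + 3 := by omega
      obtain rfl : p = q + 2 * k + 6 := by omega
      have hm : q + k + 3 ≤ M := by omega
      -- relation for (m, n') with n' = k + 2, t = X 1
      have hR1 := H.rel' (q + k + 3) (k + 2) (q + 2 * k + 5) (q + 1) (by omega) (by omega)
        (by omega) (by omega) (by omega) (X 1)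
      -- relation for (n', 1), t = X m
      have hR2 := H.rel' (k + 2) 1 (k + 3) (k + 1) le_rfl (by omega) (by omega) (by omega)
        (by omega) (X (q + k + 3))
      have hsym : Fs (X (q + k + 3)) (X (k + 2)) (X 1) = Fs (X (k + 2)) (X 1) (X (q + k + 3)) := by
        rw [H.sym12, H.sym23]
      rw [hsym, ← hR2] at hR1
      -- substitutions
      have hA := H.claimA_one' (q + 2 * k + 5) (q + 2 * k + 6) (q + 2 * k + 4) (by omega) (by omega)
        (by omega)
      have hB : X (q + 1) - X 1 = -(wSeq X b (q + 2) * wSeq X b q) / wSeq X b (q + 1) ^ 2 :=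
        H.claimA_one' (q + 1) (q + 2) q (by omega) (by omega) (by omega)
      have hC := ih (k + 2) (by omega) (q + k + 3) (q + 2 * k + 5) (q + 1) (by omega) (by omega)
        (by omega) (by omega) (by omega)
      have hD := ih (k + 1) (by omega) (q + k + 3) (q + 2 * k + 4) (q + 2) (by omega) (by omega)
        (by omega) (by omega) (by omega)
      have hE := H.claimA_one' (k + 2) (k + 3) (k + 1) (by omega) (by omega) (by omega)
      have wq : wSeq X b q ≠ 0 := H.w_ne _ (by omega) (by omega)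
      have wq1 : wSeq X b (q + 1) ≠ 0 := H.w_ne _ (by omega) (by omega)
      have wq2 : wSeq X b (q + 2) ≠ 0 := H.w_ne _ (by omega) (by omega)
      have wk1 : wSeq X b (k + 1) ≠ 0 := H.w_ne _ (by omega) (by omega)
      have wk2 : wSeq X b (k + 2) ≠ 0 := H.w_ne _ (by omega) (by omega)
      have wk3 : wSeq X b (k + 3) ≠ 0 := H.w_ne _ (by omega) (by omega)
      have wm : wSeq X b (q + k + 3) ≠ 0 := H.w_ne _ (by omega) (by omega)
      have wp4 : wSeq X b (q + 2 * k + 4) ≠ 0 := H.w_ne _ (by omega) (by omega)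
      have wp5 : wSeq X b (q + 2 * k + 5) ≠ 0 := H.w_ne _ (by omega) (by omega)
      have hne1 : X (q + k + 3) - X (k + 1) ≠ 0 :=
        sub_ne_zero.mpr (H.ne _ _ (by omega) (by omega) (by omega))
      have hne2 : X (k + 2) - X 1 ≠ 0 :=
        sub_ne_zero.mpr (H.ne _ _ (by omega) (by omega) (by omega))
      -- solve for the unknown difference
      have key : X (q + k + 3) - X (k + 3) =
          (X (q + 2 * k + 5) - X 1) * (X (q + 1) - X 1) * (X (q + k + 3) - X (k + 2)) ^ 2 /
            ((X (q + k + 3) - X (k + 1)) * (X (k + 2) - X 1) ^ 2) := by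
        rw [eq_div_iff (mul_ne_zero hne1 (pow_ne_zero 2 hne2))]
        linear_combination -hR1
      rw [key, hA, hB, hC, hD, hE]
      field_simp

/-- The odd recursion for `wSeq`: `w(2m+1) = w(m+2) w(m)³ - w(m-1) w(m+1)³` with `m = j + 1`. -/
lemma wSeq_odd (j : ℕ) (hM : 2 * (j + 1) + 1 ≤ M + 1) :
    wSeq X b (2 * (j + 1) + 1) =
      wSeq X b (j + 3) * wSeq X b (j + 1) ^ 3 - wSeq X b j * wSeq X b (j + 2) ^ 3 := by
  have hA := H.claimA (j + 1) (j + 2) (2 * (j + 1) + 1) 1 (by omega) le_rfl (by omega) (by omega) hM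
  have hB := H.claimA_one' (j + 2) (j + 3) (j + 1) (by omega) (by omega) (by omega)
  have hC : X (j + 1) - X 1 = -(wSeq X b (j + 2) * wSeq X b j) / wSeq X b (j + 1) ^ 2 := by
    rcases Nat.eq_zero_or_pos j with h0 | h0
    · subst h0; simp
    · exact H.claimA_one' (j + 1) (j + 2) j (by omega) (by omega) (by omega)
  have w1 : wSeq X b (j + 1) ≠ 0 := H.w_ne _ (by omega) (by omega)
  have w2 : wSeq X b (j + 2) ≠ 0 := H.w_ne _ (by omega) (by omega)
  have e : X (j + 2) - X (j + 1) = (X (j + 2) - X 1) - (X (j + 1) - X 1) := by ring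
  rw [e, hB, hC, wSeq_one] at hA
  field_simp at hA
  linear_combination hA

/-- The even recursion for `wSeq`: `w(2m) b = w(m-1)² w(m) w(m+2) - w(m-2) w(m) w(m+1)²`,
with `m = j + 2`. -/
lemma wSeq_even (j : ℕ) (hM : 2 * (j + 2) ≤ M + 1) :
    wSeq X b (2 * (j + 2)) * b =
      wSeq X b (j + 1) ^ 2 * wSeq X b (j + 2) * wSeq X b (j + 4) -
        wSeq X b j * wSeq X b (j + 2) * wSeq X b (j + 3) ^ 2 := by
  rcases Nat.eq_zero_or_pos j with h0 | h0
  · -- m = 2: `w 4 * b = w 1 ^ 2 * w 2 * w 4 - 0`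
    subst h0; simp; ring
  have hA := H.claimA (j + 1) (j + 3) (2 * (j + 2)) 2 (by omega) (by omega) (by omega) (by omega) hM
  have hB := H.claimA_one' (j + 3) (j + 4) (j + 2) (by omega) (by omega) (by omega)
  have hC : X (j + 1) - X 1 = -(wSeq X b (j + 2) * wSeq X b j) / wSeq X b (j + 1) ^ 2 :=
    H.claimA_one' (j + 1) (j + 2) j (by omega) (by omega) (by omega)
  have w1 : wSeq X b (j + 1) ≠ 0 := H.w_ne _ (by omega) (by omega)
  have w3 : wSeq X b (j + 3) ≠ 0 := H.w_ne _ (by omega) (by omega)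
  have e : X (j + 3) - X (j + 1) = (X (j + 3) - X 1) - (X (j + 1) - X 1) := by ring
  rw [e, hB, hC, wSeq_two] at hA
  field_simp at hA
  linear_combination hA

/-- Identification of `wSeq` with the normalised EDS with the same initial values. -/
theorem wSeq_eq_normEDS (c d : F) (h3 : 3 ≤ M + 1 → wSeq X b 3 = c)
    (h4 : 4 ≤ M + 1 → wSeq X b 4 = d * b) :
    ∀ n : ℕ, n ≤ M + 1 → wSeq X b n = normEDS b c d (n : ℤ) := by
  intro n
  induction n using normEDSRec with
  | zero => intro _; simp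
  | one => intro _; simp
  | two => intro _; simp
  | three => intro h; simpa using h3 h
  | four => intro h; simpa using h4 h
  | even m ih1 ih2 ih3 ih4 ih5 =>
    intro hM
    have hb : b ≠ 0 := H.b_ne
    have hw := H.wSeq_even (m + 1) (by omega)
    have hN := normEDS_even b c d ((m + 3 : ℕ) : ℤ)
    have e1 : ((m + 3 : ℕ) : ℤ) - 1 = ((m + 2 : ℕ) : ℤ) := by push_cast; ring
    have e2 : ((m + 3 : ℕ) : ℤ) - 2 = ((m + 1 : ℕ) : ℤ) := by push_cast; ring
    have e3 : ((m + 3 : ℕ) : ℤ) + 1 = ((m + 4 : ℕ) : ℤ) := by push_cast; ring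
    have e4 : ((m + 3 : ℕ) : ℤ) + 2 = ((m + 5 : ℕ) : ℤ) := by push_cast; ring
    have e5 : 2 * ((m + 3 : ℕ) : ℤ) = ((2 * (m + 3) : ℕ) : ℤ) := by push_cast; ring
    rw [e1, e2, e3, e4, e5] at hN
    rw [← ih1 (by omega), ← ih2 (by omega), ← ih3 (by omega), ← ih4 (by omega),
      ← ih5 (by omega)] at hN
    have : wSeq X b (2 * (m + 3)) * b = normEDS b c d ((2 * (m + 3) : ℕ) : ℤ) * b := by
      rw [hN]
      have : 2 * (m + 1 + 2) = 2 * (m + 3) := by ring
      rw [this] at hw
      rw [hw]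
    exact mul_right_cancel₀ hb this
  | odd m ih1 ih2 ih3 ih4 =>
    intro hM
    have hw := H.wSeq_odd (m + 1) (by omega)
    have hN := normEDS_odd b c d ((m + 2 : ℕ) : ℤ)
    have e1 : ((m + 2 : ℕ) : ℤ) - 1 = ((m + 1 : ℕ) : ℤ) := by push_cast; ring
    have e3 : ((m + 2 : ℕ) : ℤ) + 1 = ((m + 3 : ℕ) : ℤ) := by push_cast; ring
    have e4 : ((m + 2 : ℕ) : ℤ) + 2 = ((m + 4 : ℕ) : ℤ) := by push_cast; ring
    have e5 : 2 * ((m + 2 : ℕ) : ℤ) + 1 = ((2 * (m + 2) + 1 : ℕ) : ℤ) := by push_cast; ring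
    rw [e1, e3, e4, e5] at hN
    rw [← ih1 (by omega), ← ih2 (by omega), ← ih3 (by omega), ← ih4 (by omega)] at hN
    rw [hN]
    have : 2 * (m + 1 + 1) + 1 = 2 * (m + 2) + 1 := by ring
    rw [this] at hw
    rw [hw]

end SeqHyp

end Fermat.Agent.Lib.Torsion.H11
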