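/-
Item 57 (E[p] via division polynomials), part 1: x-only identities for the group law.

For affine points `A = (x₁, y₁)`, `B = (x₂, y₂)` with `x₁ ≠ x₂`:
`(x(A+B) - t) (x(A-B) - t) (x₁ - x₂)² = symF x₁ x₂ t`, where `symF` is totally symmetric, and
`symF u v v = Φ₂(v) - u Ψ₂Sq(v)`, `x(2B) Ψ₂Sq(v) = Φ₂(v)`.
-/
import Mathlib.AlgebraicGeometry.EllipticCurve.Affine.Point
import Mathlib.AlgebraicGeometry.EllipticCurve.DivisionPolynomial.Basic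

set_option autoImplicit false

namespace Fermat.Agent.Lib.Torsion.H11

open WeierstrassCurve

section algebra

variable {F : Type*} [Field F]

/-- The polynomial identity behind the product formula (with a free parameter `t`). -/
lemma alg_rel (a1 a2 a3 a4 a6 x1 y1 x2 y2 t : F)
    (E1 : y1 ^ 2 + a1 * x1 * y1 + a3 * y1 = x1 ^ 3 + a2 * x1 ^ 2 + a4 * x1 + a6)
    (E2 : y2 ^ 2 + a1 * x2 * y2 + a3 * y2 = x2 ^ 3 + a2 * x2 ^ 2 + a4 * x2 + a6) :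
    ((y1 - y2) ^ 2 + a1 * (x1 - x2) * (y1 - y2) - (x1 - x2) ^ 2 * (a2 + x1 + x2 + t)) *
      ((y1 - (-y2 - a1 * x2 - a3)) ^ 2 + a1 * (x1 - x2) * (y1 - (-y2 - a1 * x2 - a3)) -
        (x1 - x2) ^ 2 * (a2 + x1 + x2 + t)) =
    (x1 - x2) ^ 2 *
      ((x1 ^ 2 * x2 ^ 2 + x1 ^ 2 * t ^ 2 + x2 ^ 2 * t ^ 2) - 2 * x1 * x2 * t * (x1 + x2 + t)
        - (a1 ^ 2 + 4 * a2) * x1 * x2 * t - (2 * a4 + a1 * a3) * (x1 * x2 + x1 * t + x2 * t)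
        - (a3 ^ 2 + 4 * a6) * (x1 + x2 + t)
        - (a1 ^ 2 * a6 + 4 * a2 * a6 - a1 * a3 * a4 + a2 * a3 ^ 2 - a4 ^ 2)) := by
  linear_combination
    (-x1 ^ 3 + 2 * x1 ^ 2 * x2 - 2 * x1 ^ 2 * t - x1 ^ 2 * a2 + x1 * y1 * a1 + 2 * x1 * x2 ^ 2 +
      4 * x1 * x2 * t + x1 * x2 * a1 ^ 2 + 4 * x1 * x2 * a2 + x1 * a1 * a3 + x1 * a4 + y1 ^ 2 +
      y1 * a3 - 2 * x2 ^ 3 - 2 * x2 ^ 2 * t - x2 ^ 2 * a1 ^ 2 - 2 * x2 ^ 2 * a2 - 2 * x2 * y2 * a1 -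
      x2 * a1 * a3 - 2 * y2 ^ 2 - 2 * y2 * a3 + a6) * E1 +
    (-4 * x1 ^ 3 + 2 * x1 ^ 2 * x2 - 2 * x1 ^ 2 * t - x1 ^ 2 * a1 ^ 2 - 4 * x1 ^ 2 * a2 +
      2 * x1 * x2 ^ 2 + 4 * x1 * x2 * t + x1 * x2 * a1 ^ 2 + 4 * x1 * x2 * a2 - x1 * a1 * a3 -
      2 * x1 * a4 - x2 ^ 3 - 2 * x2 ^ 2 * t - x2 ^ 2 * a2 + x2 * y2 * a1 + x2 * a1 * a3 + x2 * a4 +
      y2 ^ 2 + y2 * a3 - a6) * E2

/-- The polynomial identity behind the duplication formula. -/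
lemma alg_dup (a1 a2 a3 a4 a6 x y : F)
    (E : y ^ 2 + a1 * x * y + a3 * y = x ^ 3 + a2 * x ^ 2 + a4 * x + a6) :
    (3 * x ^ 2 + 2 * a2 * x + a4 - a1 * y) ^ 2 +
        a1 * (3 * x ^ 2 + 2 * a2 * x + a4 - a1 * y) * (2 * y + a1 * x + a3) -
        (a2 + 2 * x) * (2 * y + a1 * x + a3) ^ 2 =
      x ^ 4 - (2 * a4 + a1 * a3) * x ^ 2 - 2 * (a3 ^ 2 + 4 * a6) * x -
        (a1 ^ 2 * a6 + 4 * a2 * a6 - a1 * a3 * a4 + a2 * a3 ^ 2 - a4 ^ 2) := by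
  linear_combination (-8 * x - a1 ^ 2 - 4 * a2) * E

/-- `ψ₂² = Ψ₂Sq` on the curve. -/
lemma alg_psi2_sq (a1 a2 a3 a4 a6 x y : F)
    (E : y ^ 2 + a1 * x * y + a3 * y = x ^ 3 + a2 * x ^ 2 + a4 * x + a6) :
    (2 * y + a1 * x + a3) ^ 2 =
      4 * x ^ 3 + (a1 ^ 2 + 4 * a2) * x ^ 2 + 2 * (2 * a4 + a1 * a3) * x + (a3 ^ 2 + 4 * a6) := by
  linear_combination 4 * E

end algebra

variable {F : Type*} [Field F] (W : Affine F)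

/-- The totally symmetric biquadratic form attached to `W`. -/
def symF (u v t : F) : F :=
  (u ^ 2 * v ^ 2 + u ^ 2 * t ^ 2 + v ^ 2 * t ^ 2) - 2 * u * v * t * (u + v + t)
    - W.b₂ * u * v * t - W.b₄ * (u * v + u * t + v * t) - W.b₆ * (u + v + t) - W.b₈

lemma symF_comm12 (u v t : F) : symF W u v t = symF W v u t := by
  unfold symF; ring

lemma symF_comm23 (u v t : F) : symF W u v t = symF W u t v := by
  unfold symF; ring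

/-- The value of `Ψ₂Sq` at `x`. -/
def psi2sq (x : F) : F := 4 * x ^ 3 + W.b₂ * x ^ 2 + 2 * W.b₄ * x + W.b₆

/-- The value of `Φ₂` at `x`. -/
def phi2 (x : F) : F := x ^ 4 - W.b₄ * x ^ 2 - 2 * W.b₆ * x - W.b₈

lemma symF_self (u v : F) : symF W u v v = phi2 W v - u * psi2sq W v := by
  unfold symF phi2 psi2sq; ring

lemma psi2sq_eq_eval (x : F) : psi2sq W x = (W.Ψ₂Sq).eval x := by
  simp [psi2sq, WeierstrassCurve.Ψ₂Sq]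

variable [DecidableEq F]

/-- x-only addition formula with parameter. -/
lemma addX_rel {x₁ x₂ y₁ y₂ : F} (h₁ : W.Equation x₁ y₁) (h₂ : W.Equation x₂ y₂)
    (hx : x₁ ≠ x₂) (t : F) :
    (W.addX x₁ x₂ (W.slope x₁ x₂ y₁ y₂) - t) *
        (W.addX x₁ x₂ (W.slope x₁ x₂ y₁ (W.negY x₂ y₂)) - t) * (x₁ - x₂) ^ 2 =
      symF W x₁ x₂ t := by
  have hh : x₁ - x₂ ≠ 0 := sub_ne_zero.mpr hx
  rw [Affine.equation_iff] at h₁ h₂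
  have key := alg_rel W.a₁ W.a₂ W.a₃ W.a₄ W.a₆ x₁ y₁ x₂ y₂ t h₁ h₂
  rw [Affine.slope_of_X_ne hx, Affine.slope_of_X_ne hx]
  simp only [Affine.addX, Affine.negY, symF, WeierstrassCurve.b₂, WeierstrassCurve.b₄,
    WeierstrassCurve.b₆, WeierstrassCurve.b₈]
  have e1 : ∀ z : F, ((z / (x₁ - x₂)) ^ 2 + W.a₁ * (z / (x₁ - x₂)) - W.a₂ - x₁ - x₂ - t) *
      (x₁ - x₂) ^ 2 = z ^ 2 + W.a₁ * (x₁ - x₂) * z - (x₁ - x₂) ^ 2 * (W.a₂ + x₁ + x₂ + t) := by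
    intro z; field_simp; ring
  have e2 := e1 (y₁ - y₂)
  have e3 := e1 (y₁ - (-y₂ - W.a₁ * x₂ - W.a₃))
  apply mul_right_cancel₀ (pow_ne_zero 2 hh)
  calc _ = (((y₁ - y₂) / (x₁ - x₂)) ^ 2 + W.a₁ * ((y₁ - y₂) / (x₁ - x₂)) - W.a₂ - x₁ - x₂ - t) *
            (x₁ - x₂) ^ 2 *
          ((((y₁ - (-y₂ - W.a₁ * x₂ - W.a₃)) / (x₁ - x₂)) ^ 2 +
            W.a₁ * ((y₁ - (-y₂ - W.a₁ * x₂ - W.a₃)) / (x₁ - x₂)) - W.a₂ - x₁ - x₂ - t) *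
            (x₁ - x₂) ^ 2) := by ring
    _ = _ := by rw [e2, e3, key]; ring

/-- Duplication formula (x-only). -/
lemma addX_dup {x y : F} (h : W.Equation x y) (hy : y ≠ W.negY x y) :
    W.addX x x (W.slope x x y y) * psi2sq W x = phi2 W x := by
  rw [Affine.equation_iff] at h
  have hd : y - W.negY x y ≠ 0 := sub_ne_zero.mpr hy
  have key := alg_dup W.a₁ W.a₂ W.a₃ W.a₄ W.a₆ x y h
  have k2 := alg_psi2_sq W.a₁ W.a₂ W.a₃ W.a₄ W.a₆ x y h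
  have hD : y - W.negY x y = 2 * y + W.a₁ * x + W.a₃ := by simp only [Affine.negY]; ring
  rw [Affine.slope_of_Y_ne rfl hy]
  have e : ∀ N D : F, D ≠ 0 → ((N / D) ^ 2 + W.a₁ * (N / D) - W.a₂ - x - x) * D ^ 2 =
      N ^ 2 + W.a₁ * N * D - (W.a₂ + 2 * x) * D ^ 2 := by
    intro N D hD; field_simp; ring
  have e' := e (3 * x ^ 2 + 2 * W.a₂ * x + W.a₄ - W.a₁ * y) (y - W.negY x y) hd
  have hp : psi2sq W x = (y - W.negY x y) ^ 2 := by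
    rw [hD, k2]; simp only [psi2sq, WeierstrassCurve.b₂, WeierstrassCurve.b₄, WeierstrassCurve.b₆]
  have hq : phi2 W x = x ^ 4 - (2 * W.a₄ + W.a₁ * W.a₃) * x ^ 2 - 2 * (W.a₃ ^ 2 + 4 * W.a₆) * x -
      (W.a₁ ^ 2 * W.a₆ + 4 * W.a₂ * W.a₆ - W.a₁ * W.a₃ * W.a₄ + W.a₂ * W.a₃ ^ 2 - W.a₄ ^ 2) := by
    simp only [phi2, WeierstrassCurve.b₄, WeierstrassCurve.b₆, WeierstrassCurve.b₈]
  rw [hp, hq, ← key]
  simp only [Affine.addX]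
  rw [e', hD]

end Fermat.Agent.Lib.Torsion.H11
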