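/-
Item 57 (E[p] via division polynomials), part 3: the values of the division polynomials `ψ n`
at a point `P` whose first `M` multiples are nonzero.

Main results (for `P = some x y h` on `W : Affine F`, `F` any field, `psi k = (W.ψ k).evalEval x y`):
* `psi_ne_zero`   (In1)  : `(∀ k, 1 ≤ k → k ≤ n → k • P ≠ 0) → psi n ≠ 0`;
* `psi_eq_zero`   (In1') : `(∀ k, 1 ≤ k → k < n → k • P ≠ 0) → n • P = 0 → psi n = 0`;
* `psi_net_rel`   (In2)  : the elliptic relation `ER(m,n,1)` for `m + n ≤ L + 1`;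
* `xc_smul_sub`          : `x(m P) - x(n P) = - psi(m+n) psi(m-n) / (psi(m)² psi(n)²)`.
-/
import Fermat.Agent.Lib.Torsion.H11_SeqLemma
import Fermat.Agent.Lib.Torsion.H11_XOnly

set_option autoImplicit false

namespace Fermat.Agent.Lib.Torsion.H11

open WeierstrassCurve

variable {F : Type*} [Field F] (W : Affine F)

/-- The x-coordinate of a point (junk value `0` at infinity). -/
def xc : W.Point → F
  | .zero => 0
  | .some x _ _ => x

@[simp] lemma xc_some {x y : F} (h : W.Nonsingular x y) : xc W (Affine.Point.some x y h) = x := rfl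

lemma xc_neg (P : W.Point) : xc W (-P) = xc W P := by
  cases P with
  | zero => rfl
  | some x y h => rfl

lemma eq_or_eq_neg_of_xc_eq {P Q : W.Point} (hP : P ≠ 0) (hQ : Q ≠ 0) (h : xc W P = xc W Q) :
    P = Q ∨ P = -Q := by
  cases P with
  | zero => exact absurd rfl hP
  | some x₁ y₁ h₁ =>
    cases Q with
    | zero => exact absurd rfl hQ
    | some x₂ y₂ h₂ =>
      exact Affine.Point.X_eq_iff.mp h

variable [DecidableEq F]

/-- The x-only addition formula in terms of points. -/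
lemma xc_add_rel {A B : W.Point} (hA : A ≠ 0) (hB : B ≠ 0) (hx : xc W A ≠ xc W B) (t : F) :
    (xc W (A + B) - t) * (xc W (A - B) - t) * (xc W A - xc W B) ^ 2 =
      symF W (xc W A) (xc W B) t := by
  cases A with
  | zero => exact absurd rfl hA
  | some x₁ y₁ h₁ =>
    cases B with
    | zero => exact absurd rfl hB
    | some x₂ y₂ h₂ =>
      simp only [xc_some] at hx ⊢
      rw [sub_eq_add_neg (Affine.Point.some x₁ y₁ h₁) (Affine.Point.some x₂ y₂ h₂),
        Affine.Point.neg_some, Affine.Point.add_of_X_ne hx, Affine.Point.add_of_X_ne hx]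
      simp only [xc_some]
      exact addX_rel W h₁.1 h₂.1 hx t

/-- The x-only duplication formula in terms of points. -/
lemma xc_two_smul {x y : F} (h : W.Nonsingular x y) (hy : y ≠ W.negY x y) :
    xc W ((2 : ℕ) • Affine.Point.some x y h) * psi2sq W x = phi2 W x := by
  rw [two_smul, Affine.Point.add_self_of_Y_ne hy]
  simp only [xc_some]
  exact addX_dup W h.1 hy

lemma two_smul_eq_zero_iff {x y : F} (h : W.Nonsingular x y) :
    (2 : ℕ) • Affine.Point.some x y h = 0 ↔ y = W.negY x y := by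
  rw [two_smul]
  constructor
  · intro h0
    by_contra hy
    rw [Affine.Point.add_self_of_Y_ne hy] at h0
    exact Affine.Point.some_ne_zero _ h0
  · intro hy
    exact Affine.Point.add_self_of_Y_eq hy

section seq

variable {x y : F} (h : W.Nonsingular x y)

/-- The sequence of x-coordinates of the multiples of `P = (x, y)`. -/
def xSeq (k : ℕ) : F := xc W (k • Affine.Point.some x y h)

lemma xSeq_one : xSeq W h 1 = x := by simp [xSeq]

/-- The value of `ψ₂` at `(x, y)`. -/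
def psi2v (x y : F) : F := 2 * y + W.a₁ * x + W.a₃

omit [DecidableEq F] in
lemma psi2v_eq_sub (x y : F) : psi2v W x y = y - W.negY x y := by
  simp only [psi2v, Affine.negY]; ring

omit [DecidableEq F] in
lemma psi2v_eq_evalEval (x y : F) : psi2v W x y = (W.ψ₂).evalEval x y := by
  rw [WeierstrassCurve.ψ₂, Affine.evalEval_polynomialY, psi2v]

omit [DecidableEq F] in
include h in
lemma psi2v_sq : psi2v W x y ^ 2 = psi2sq W x := by
  have E := h.1
  rw [Affine.equation_iff] at E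
  have := alg_psi2_sq W.a₁ W.a₂ W.a₃ W.a₄ W.a₆ x y E
  simp only [psi2v, psi2sq, WeierstrassCurve.b₂, WeierstrassCurve.b₄, WeierstrassCurve.b₆]
  linear_combination this

lemma psi2v_eq_zero_iff : psi2v W x y = 0 ↔ (2 : ℕ) • Affine.Point.some x y h = 0 := by
  rw [two_smul_eq_zero_iff, psi2v_eq_sub, sub_eq_zero]

/-- The hypotheses of the sequence lemma hold for the multiples of a point of order `> M`. -/
lemma seqHyp (M : ℕ) (hM2 : 2 ≤ M)
    (hM : ∀ k, 1 ≤ k → k ≤ M → k • Affine.Point.some x y h ≠ 0) :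
    SeqHyp (xSeq W h) (psi2v W x y) M (symF W) where
  b_ne := by
    rw [Ne, psi2v_eq_zero_iff W h]
    exact hM 2 (by omega) hM2
  two_le := hM2
  sym12 := symF_comm12 W
  sym23 := symF_comm23 W
  ne := by
    intro a c hc hca hac heq
    rcases eq_or_eq_neg_of_xc_eq W (hM a (by omega) (by omega)) (hM c hc (by omega)) heq with e | e
    · apply hM (a - c) (by omega) (by omega)
      rw [sub_nsmul _ hca.le, e, add_neg_cancel]
    · apply hM (a + c) (by omega) hac
      rw [add_nsmul, e, neg_add_cancel]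
  rel := by
    intro a c hc hca hac t
    have hne : xc W (a • Affine.Point.some x y h) ≠ xc W (c • Affine.Point.some x y h) := by
      intro heq
      rcases eq_or_eq_neg_of_xc_eq W (hM a (by omega) (by omega)) (hM c hc (by omega)) heq
        with e | e
      · apply hM (a - c) (by omega) (by omega)
        rw [sub_nsmul _ hca.le, e, add_neg_cancel]
      · apply hM (a + c) (by omega) hac
        rw [add_nsmul, e, neg_add_cancel]
    have := xc_add_rel W (hM a (by omega) (by omega)) (hM c hc (by omega)) hne t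
    simp only [xSeq]
    rw [add_nsmul, sub_nsmul _ hca.le, ← sub_eq_add_neg]
    exact this
  dup := by
    intro u
    have hy : y ≠ W.negY x y := by
      intro hy
      exact hM 2 (by omega) hM2 ((two_smul_eq_zero_iff W h).mpr hy)
    have h2 := xc_two_smul W h hy
    rw [xSeq_one, symF_self, psi2v_sq W h]
    simp only [xSeq]
    linear_combination -h2

/-- The value of `Ψ₃` at `x`. -/
def psi3v (x : F) : F := 3 * x ^ 4 + W.b₂ * x ^ 3 + 3 * W.b₄ * x ^ 2 + 3 * W.b₆ * x + W.b₈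

/-- The value of `preΨ₄` at `x`. -/
def pre4v (x : F) : F :=
  2 * x ^ 6 + W.b₂ * x ^ 5 + 5 * W.b₄ * x ^ 4 + 10 * W.b₆ * x ^ 3 + 10 * W.b₈ * x ^ 2 +
    (W.b₂ * W.b₈ - W.b₄ * W.b₆) * x + (W.b₄ * W.b₈ - W.b₆ ^ 2)

omit [DecidableEq F] in
lemma psi3v_eq_eval (x : F) : psi3v W x = (W.Ψ₃).eval x := by
  simp [psi3v, WeierstrassCurve.Ψ₃]

omit [DecidableEq F] in
lemma pre4v_eq_eval (x : F) : pre4v W x = (W.preΨ₄).eval x := by
  simp [pre4v, WeierstrassCurve.preΨ₄]

omit [DecidableEq F] in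
/-- `Φ₂ - x Ψ₂Sq = - Ψ₃`. -/
lemma phi2_sub (x : F) : phi2 W x - x * psi2sq W x = -psi3v W x := by
  simp only [phi2, psi2sq, psi3v]; ring

omit [DecidableEq F] in
/-- The identity behind `ψ₄`. -/
lemma alg_pre4 (x : F) :
    2 * x * phi2 W x ^ 2 + (2 * x ^ 2 + W.b₂ * x + W.b₄) * phi2 W x * psi2sq W x +
        (W.b₄ * x + W.b₆) * psi2sq W x ^ 2 - 2 * x * psi3v W x ^ 2 =
      -(pre4v W x * psi2sq W x) := by
  have hb := W.b_relation
  simp only [phi2, psi2sq, psi3v, pre4v]
  linear_combination (4 * x ^ 5 + x ^ 4 * W.b₂ + 2 * x ^ 3 * W.b₄ + x ^ 2 * W.b₆) * hb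

omit [DecidableEq F] in
/-- `symF` as a quadratic polynomial in `t`. -/
lemma symF_expand (u v t : F) :
    symF W u v t = (u - v) ^ 2 * t ^ 2 -
      (2 * u * v * (u + v) + W.b₂ * u * v + W.b₄ * (u + v) + W.b₆) * t +
      (u ^ 2 * v ^ 2 - W.b₄ * u * v - W.b₆ * (u + v) - W.b₈) := by
  simp only [symF]; ring

section base

variable {M : ℕ} (hM2 : 2 ≤ M) (hM : ∀ k, 1 ≤ k → k ≤ M → k • Affine.Point.some x y h ≠ 0)
include hM2 hM

lemma wSeq_three : wSeq (xSeq W h) (psi2v W x y) 3 = psi3v W x := by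
  have hy : y ≠ W.negY x y := by
    intro hy
    exact hM 2 (by omega) hM2 ((two_smul_eq_zero_iff W h).mpr hy)
  have h2 := xc_two_smul W h hy
  have e : wSeq (xSeq W h) (psi2v W x y) 3 =
      -(xSeq W h 2 - xSeq W h 1) * psi2v W x y ^ 2 := by
    have := wSeq_add_three (xSeq W h) (psi2v W x y) 0
    simpa using this
  rw [e, xSeq_one, psi2v_sq W h]
  have := phi2_sub W x
  simp only [xSeq]
  linear_combination -h2 - this

lemma xSeq_two_sub : (xSeq W h 2 - x) * psi2sq W x = -psi3v W x := by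
  have hy : y ≠ W.negY x y := by
    intro hy
    exact hM 2 (by omega) hM2 ((two_smul_eq_zero_iff W h).mpr hy)
  have h2 := xc_two_smul W h hy
  have := phi2_sub W x
  simp only [xSeq]
  linear_combination h2 + this

lemma wSeq_four (hM3 : 3 ≤ M) :
    wSeq (xSeq W h) (psi2v W x y) 4 = pre4v W x * psi2v W x y := by
  have H := seqHyp W h M hM2 hM
  have hb : psi2v W x y ≠ 0 := H.b_ne
  have hy : y ≠ W.negY x y := by
    intro hy
    exact hM 2 (by omega) hM2 ((two_smul_eq_zero_iff W h).mpr hy)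
  have h2 := xc_two_smul W h hy
  have hs := psi2v_sq W h
  have hps : psi2sq W x ≠ 0 := by rw [← hs]; exact pow_ne_zero 2 hb
  have h3 := wSeq_three W h hM2 hM
  have e : wSeq (xSeq W h) (psi2v W x y) 4 =
      -(xSeq W h 3 - xSeq W h 1) * wSeq (xSeq W h) (psi2v W x y) 3 ^ 2 / psi2v W x y := by
    have := wSeq_add_three (xSeq W h) (psi2v W x y) 1
    simpa using this
  rw [e, h3, xSeq_one]
  -- the relation for `(2, 1)` at `t = 0` and `t = 1`
  have r0 := H.rel 2 1 le_rfl (by omega) (by omega) 0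
  have r1 := H.rel 2 1 le_rfl (by omega) (by omega) 1
  rw [symF_expand] at r0 r1
  simp only [show (2 : ℕ) + 1 = 3 from rfl, show (2 : ℕ) - 1 = 1 from rfl, xSeq_one] at r0 r1
  -- sum of the roots
  have hsum : (xSeq W h 3 + x) * (xSeq W h 2 - x) ^ 2 =
      2 * xSeq W h 2 * x * (xSeq W h 2 + x) + W.b₂ * xSeq W h 2 * x + W.b₄ * (xSeq W h 2 + x) +
        W.b₆ := by
    linear_combination r0 - r1
  have hd := xSeq_two_sub W h hM2 hM
  have hX2 : xSeq W h 2 = phi2 W x / psi2sq W x := by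
    rw [eq_div_iff hps]; exact h2
  have key := alg_pre4 W x
  have hmain : (xSeq W h 3 - x) * psi3v W x ^ 2 = -(pre4v W x * psi2sq W x) := by
    have e1 : (xSeq W h 3 - x) * psi3v W x ^ 2 =
        ((xSeq W h 3 + x) * (xSeq W h 2 - x) ^ 2 - 2 * x * (xSeq W h 2 - x) ^ 2) *
          psi2sq W x ^ 2 := by
      have : psi3v W x = -((xSeq W h 2 - x) * psi2sq W x) := by rw [hd]; ring
      rw [this]; ring
    rw [e1, hsum, ← key, hX2]
    have hps' := phi2_sub W x
    field_simp
    linear_combination (-2 * x * (phi2 W x - x * psi2sq W x - psi3v W x)) * hps'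
  rw [div_eq_iff hb]
  rw [← hs] at hmain
  linear_combination -hmain

end base

omit [DecidableEq F] in
/-- The values of the division polynomials `ψ n` form the normalised EDS with the obvious
initial values. -/
lemma evalEval_ψ_eq_normEDS (x y : F) (n : ℤ) :
    (W.ψ n).evalEval x y = normEDS (psi2v W x y) (psi3v W x) (pre4v W x) n := by
  rw [WeierstrassCurve.ψ, ← Polynomial.coe_evalEvalRingHom, map_normEDS]
  simp [psi2v_eq_evalEval, psi3v_eq_eval, pre4v_eq_eval]

/-- **Theorem A**: if `k • P ≠ 0` for `1 ≤ k ≤ M` (with `M ≥ 2`), then `ψ n (P)` is the sequence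
`wSeq` built from the x-coordinates of the multiples of `P`, for all `n ≤ M + 1`. -/
theorem evalEval_ψ_eq_wSeq {M : ℕ} (hM2 : 2 ≤ M)
    (hM : ∀ k, 1 ≤ k → k ≤ M → k • Affine.Point.some x y h ≠ 0) (n : ℕ) (hn : n ≤ M + 1) :
    (W.ψ (n : ℤ)).evalEval x y = wSeq (xSeq W h) (psi2v W x y) n := by
  rw [evalEval_ψ_eq_normEDS]
  exact ((seqHyp W h M hM2 hM).wSeq_eq_normEDS (psi3v W x) (pre4v W x)
    (fun _ => wSeq_three W h hM2 hM) (fun h4 => wSeq_four W h hM2 hM (by omega)) n hn).symm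

/-- **(In1)** If `k • P ≠ 0` for all `1 ≤ k ≤ n`, then `ψ n (P) ≠ 0`. -/
theorem psi_ne_zero (n : ℕ) (hn : 1 ≤ n)
    (hM : ∀ k, 1 ≤ k → k ≤ n → k • Affine.Point.some x y h ≠ 0) :
    (W.ψ (n : ℤ)).evalEval x y ≠ 0 := by
  rcases Nat.lt_or_ge n 2 with h2 | h2
  · obtain rfl : n = 1 := by omega
    simp
  · rw [evalEval_ψ_eq_wSeq W h h2 hM n (by omega)]
    exact (seqHyp W h n h2 hM).w_ne n hn le_rfl

/-- **(In1')** If `k • P ≠ 0` for all `1 ≤ k < n` and `n • P = 0`, then `ψ n (P) = 0`. -/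
theorem psi_eq_zero (n : ℕ) (hn : 2 ≤ n)
    (hM : ∀ k, 1 ≤ k → k < n → k • Affine.Point.some x y h ≠ 0)
    (h0 : n • Affine.Point.some x y h = 0) :
    (W.ψ (n : ℤ)).evalEval x y = 0 := by
  rcases Nat.lt_or_ge n 3 with h3 | h3
  · obtain rfl : n = 2 := by omega
    have : (W.ψ ((2 : ℕ) : ℤ)).evalEval x y = psi2v W x y := by
      simp [psi2v_eq_evalEval]
    rw [this, psi2v_eq_zero_iff W h]
    exact h0
  · obtain ⟨j, rfl⟩ : ∃ j, n = j + 3 := ⟨n - 3, by omega⟩
    have hM' : ∀ k, 1 ≤ k → k ≤ j + 2 → k • Affine.Point.some x y h ≠ 0 :=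
      fun k h1 h2 => hM k h1 (by omega)
    rw [evalEval_ψ_eq_wSeq W h (by omega) hM' (j + 3) (by omega), wSeq_add_three]
    have hx : xSeq W h (j + 2) = xSeq W h 1 := by
      have e : (j + 2) • Affine.Point.some x y h = -(1 • Affine.Point.some x y h) := by
        rw [eq_neg_iff_add_eq_zero, ← add_nsmul]
        exact h0
      simp only [xSeq]
      rw [e, xc_neg]
    rw [hx]
    simp

omit [DecidableEq F] in
/-- The elliptic relation `ER(m, n, 1)` for the abstract sequence `wSeq`. -/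
lemma SeqHyp.net_rel {X : ℕ → F} {b : F} {M : ℕ} {Fs : F → F → F → F} (H : SeqHyp X b M Fs)
    (m n : ℕ) (hn : 1 ≤ n) (hnm : n < m) (hmn : m + n ≤ M + 1) :
    wSeq X b (m + n) * wSeq X b (m - n) =
      wSeq X b (m + 1) * wSeq X b (m - 1) * wSeq X b n ^ 2 -
        wSeq X b (n + 1) * wSeq X b (n - 1) * wSeq X b m ^ 2 := by
  have hA := H.claimA n m (m + n) (m - n) hn (by omega) rfl (by omega) hmn
  have hB := H.claimA_one' m (m + 1) (m - 1) rfl (by omega) (by omega)
  have hC : X n - X 1 = -(wSeq X b (n + 1) * wSeq X b (n - 1)) / wSeq X b n ^ 2 := by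
    rcases Nat.lt_or_ge n 2 with h2 | h2
    · obtain rfl : n = 1 := by omega
      simp
    · exact H.claimA_one' n (n + 1) (n - 1) rfl (by omega) (by omega)
  have wm : wSeq X b m ≠ 0 := H.w_ne _ (by omega) (by omega)
  have wn : wSeq X b n ≠ 0 := H.w_ne _ (by omega) (by omega)
  have e : X m - X n = (X m - X 1) - (X n - X 1) := by ring
  rw [e, hB, hC] at hA
  field_simp at hA
  linear_combination hA

/-- **(In2)** The elliptic relation `ER(m, n, 1)` for the values `ψ k (P)`, as long as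
`k • P ≠ 0` for `1 ≤ k ≤ L` and `m + n ≤ L + 1`. -/
theorem psi_net_rel (L m n : ℕ)
    (hL : ∀ k, 1 ≤ k → k ≤ L → k • Affine.Point.some x y h ≠ 0)
    (hn : 1 ≤ n) (hnm : n < m) (hmn : m + n ≤ L + 1) :
    (W.ψ ((m + n : ℕ) : ℤ)).evalEval x y * (W.ψ ((m - n : ℕ) : ℤ)).evalEval x y =
      (W.ψ ((m + 1 : ℕ) : ℤ)).evalEval x y * (W.ψ ((m - 1 : ℕ) : ℤ)).evalEval x y *
          (W.ψ (n : ℤ)).evalEval x y ^ 2 -
        (W.ψ ((n + 1 : ℕ) : ℤ)).evalEval x y * (W.ψ ((n - 1 : ℕ) : ℤ)).evalEval x y *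
          (W.ψ (m : ℤ)).evalEval x y ^ 2 := by
  have hL2 : 2 ≤ L := by omega
  have key := fun k hk => evalEval_ψ_eq_wSeq W h hL2 hL k hk
  rw [key _ hmn, key (m - n) (by omega), key (m + 1) (by omega), key (m - 1) (by omega),
    key n (by omega), key (n + 1) (by omega), key (n - 1) (by omega), key m (by omega)]
  exact (seqHyp W h L hL2 hL).net_rel m n hn hnm hmn

/-- The x-coordinate of `n • P` in terms of the `ψ k (P)`:
`(x(n P) - x) ψ_n² = - ψ_{n+1} ψ_{n-1}`, for `n + 1 ≤ L + 1`. -/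
theorem xc_smul_sub (L n : ℕ)
    (hL : ∀ k, 1 ≤ k → k ≤ L → k • Affine.Point.some x y h ≠ 0) (hn : 1 ≤ n) (hnL : n ≤ L) :
    (xc W (n • Affine.Point.some x y h) - x) * (W.ψ (n : ℤ)).evalEval x y ^ 2 =
      -((W.ψ ((n + 1 : ℕ) : ℤ)).evalEval x y * (W.ψ ((n - 1 : ℕ) : ℤ)).evalEval x y) := by
  rcases Nat.lt_or_ge L 2 with h2 | h2
  · obtain rfl : n = 1 := by omega
    simp
  · have key := fun k hk => evalEval_ψ_eq_wSeq W h h2 hL k hk
    rw [key n (by omega), key (n + 1) (by omega), key (n - 1) (by omega)]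
    obtain ⟨j, rfl⟩ : ∃ j, n = j + 1 := ⟨n - 1, by omega⟩
    have := (seqHyp W h L h2 hL).claimA_one j hnL
    simp only [xSeq] at this
    simpa using this

end seq

end Fermat.Agent.Lib.Torsion.H11
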