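/-
Cluster M / S12 (helper63): the x-only ladder.

If a sequence `ξ 1, …, ξ (p-1)` of field elements satisfies the x-only addition relations of a
Weierstrass curve `W` along `k ↦ k+1` (in the form of helper11's `symF`), starts at the
x-coordinate of a point `Q` which is not 2-torsion, and `ξ (p-1) = ξ 1`, then `p • Q = 0`.

Use: `ξ k = x'(φ (k • P))` for the explicit quotient map `φ : E → E/N` and `P ∈ E[p] ∖ N`;
this proves that `φ P` has order `p` without knowing that `φ` is a homomorphism.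
-/
import Fermat.Agent.Lib.Torsion.H11_Order

set_option autoImplicit false

namespace Fermat.Agent.Lib.Torsion.H63

open WeierstrassCurve Fermat.Agent.Lib.Torsion.H11

variable {F : Type*} [Field F] [DecidableEq F] (W : Affine F)

/-- The multiples `k • Q`, `1 ≤ k ≤ p - 1`, are nonzero with x-coordinate `ξ k`. -/
theorem ladder_aux {x y : F} (h : W.Nonsingular x y) (hy : y ≠ W.negY x y)
    (p : ℕ) (hp4 : 4 ≤ p) (ξ : ℕ → F) (h1 : ξ 1 = x)
    (hne : ∀ k, 2 ≤ k → k + 2 ≤ p → ξ k ≠ ξ 1)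
    (hrel : ∀ k, 2 ≤ k → k + 2 ≤ p → ∀ t : F,
      (ξ (k + 1) - t) * (ξ (k - 1) - t) * (ξ k - ξ 1) ^ 2 = symF W (ξ k) (ξ 1) t) :
    ∀ k, 1 ≤ k → k + 1 ≤ p →
      k • Affine.Point.some x y h ≠ 0 ∧ xc W (k • Affine.Point.some x y h) = ξ k := by
  set Q : W.Point := Affine.Point.some x y h with hQ
  have hQ0 : Q ≠ 0 := Affine.Point.some_ne_zero h
  have hxQ : xc W Q = x := rfl
  -- the statement for `k` and `k + 1` simultaneously
  have key : ∀ n, n + 3 ≤ p →
      ((n + 1) • Q ≠ 0 ∧ xc W ((n + 1) • Q) = ξ (n + 1)) ∧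
      ((n + 2) • Q ≠ 0 ∧ xc W ((n + 2) • Q) = ξ (n + 2)) := by
    intro n
    induction n with
    | zero =>
      intro hp
      refine ⟨⟨by simp [hQ0], by simp [hxQ, h1]⟩, ?_⟩
      have h2Q : (2 : ℕ) • Q ≠ 0 := fun h0 => hy ((two_smul_eq_zero_iff W h).mp h0)
      refine ⟨by simpa using h2Q, ?_⟩
      have hd := xc_two_smul W h hy
      have hr := hrel 2 le_rfl (by omega) (ξ 1)
      rw [sub_self, mul_zero, zero_mul, symF_self, h1] at hr
      have hpsi : psi2sq W x ≠ 0 := by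
        rw [← psi2v_sq W h, psi2v_eq_sub]
        exact pow_ne_zero 2 (sub_ne_zero.mpr hy)
      have : xc W ((2 : ℕ) • Q) * psi2sq W x = ξ 2 * psi2sq W x := by
        rw [hd]
        linear_combination -hr
      simpa using mul_right_cancel₀ hpsi this
    | succ n ih =>
      intro hp
      obtain ⟨⟨hk0, hkx⟩, ⟨hk1, hkx1⟩⟩ := ih (by omega)
      refine ⟨⟨hk1, hkx1⟩, ?_⟩
      -- step from `k = n + 2` to `k + 1 = n + 3`
      have hne' : ξ (n + 2) ≠ ξ 1 := hne (n + 2) (by omega) (by omega)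
      have hxne : xc W ((n + 2) • Q) ≠ xc W Q := by rw [hkx1, hxQ, ← h1]; exact hne'
      have hadd : (n + 2) • Q + Q = (n + 1 + 2) • Q := (succ_nsmul Q (n + 2)).symm
      have hsub : (n + 2) • Q - Q = (n + 1) • Q := by
        rw [show (n + 2) • Q = (n + 1) • Q + Q from succ_nsmul Q (n + 1), add_sub_cancel_right]
      constructor
      · intro h0
        rw [← hadd] at h0
        have : (n + 2) • Q = -Q := eq_neg_of_add_eq_zero_left h0
        apply hxne
        rw [this, xc_neg]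
      · have hr := hrel (n + 2) (by omega) (by omega)
        have ha := xc_add_rel W hk1 hQ0 hxne
        rw [hadd, hsub, hkx1, hkx, hxQ, ← h1] at ha
        have hsq : (ξ (n + 2) - ξ 1) ^ 2 ≠ 0 := pow_ne_zero 2 (sub_ne_zero.mpr hne')
        -- choose `t` with `ξ (n + 1) - t ≠ 0`
        have ht : ξ (n + 1) - (ξ (n + 1) - 1) ≠ 0 := by
          rw [sub_sub_cancel]; exact one_ne_zero
        have e1 := ha (ξ (n + 1) - 1)
        have e2 := hr (ξ (n + 1) - 1)
        rw [show n + 2 + 1 = n + 1 + 2 by ring, show n + 2 - 1 = n + 1 by omega] at e2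
        have e3 : (xc W ((n + 1 + 2) • Q) - (ξ (n + 1) - 1)) * (ξ (n + 1) - (ξ (n + 1) - 1)) =
            (ξ (n + 1 + 2) - (ξ (n + 1) - 1)) * (ξ (n + 1) - (ξ (n + 1) - 1)) :=
          mul_right_cancel₀ hsq (e1.trans e2.symm)
        have e4 := mul_right_cancel₀ ht e3
        exact sub_left_injective e4
  intro k hk hkp
  by_cases hp3 : k + 2 ≤ p
  · obtain ⟨m, rfl⟩ : ∃ m, k = m + 1 := ⟨k - 1, by omega⟩
    exact (key m (by omega)).1
  · -- `k + 1 = p`
    by_cases hk1 : k = 1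
    · subst hk1
      exact ⟨by simp [hQ0], by simp [hxQ, h1]⟩
    · obtain ⟨m, rfl⟩ : ∃ m, k = m + 2 := ⟨k - 2, by omega⟩
      exact (key m (by omega)).2

/-- **Ladder.** Under the hypotheses of `ladder_aux` and `ξ (p - 1) = ξ 1`: `p • Q = 0`. -/
theorem smul_eq_zero_of_ladder {x y : F} (h : W.Nonsingular x y) (hy : y ≠ W.negY x y)
    (p : ℕ) (hp : 4 ≤ p) (ξ : ℕ → F) (h1 : ξ 1 = x)
    (hne : ∀ k, 2 ≤ k → k + 2 ≤ p → ξ k ≠ ξ 1)
    (hrel : ∀ k, 2 ≤ k → k + 2 ≤ p → ∀ t : F,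
      (ξ (k + 1) - t) * (ξ (k - 1) - t) * (ξ k - ξ 1) ^ 2 = symF W (ξ k) (ξ 1) t)
    (hlast : ξ (p - 1) = ξ 1) :
    p • Affine.Point.some x y h = 0 := by
  set Q : W.Point := Affine.Point.some x y h with hQ
  have hQ0 : Q ≠ 0 := Affine.Point.some_ne_zero h
  have aux := ladder_aux W h hy p hp ξ h1 hne hrel
  obtain ⟨hA0, hAx⟩ := aux (p - 1) (by omega) (by omega)
  obtain ⟨hB0, -⟩ := aux (p - 2) (by omega) (by omega)
  have hx : xc W ((p - 1) • Q) = xc W Q := by
    rw [hAx, hlast, h1]; rfl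
  have hsplit : (p - 2) • Q + Q = (p - 1) • Q := by
    have e : p - 1 = (p - 2) + 1 := by omega
    rw [e]; exact (succ_nsmul Q (p - 2)).symm
  have hsplit' : (p - 1) • Q + Q = p • Q := by
    have e : p = (p - 1) + 1 := by omega
    have := (succ_nsmul Q (p - 1)).symm
    rwa [← e] at this
  rcases eq_or_eq_neg_of_xc_eq W hA0 hQ0 hx with hPQ | hPQ
  · exfalso
    apply hB0
    have : (p - 2) • Q + Q = Q := hsplit.trans hPQ
    simpa using this
  · rw [← hsplit', hPQ, neg_add_cancel]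

end Fermat.Agent.Lib.Torsion.H63
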