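/-
Cluster M / S12, piece HOM (helper63): the norm relation, abstract form.

`N` a finite subgroup of `W.Point`, `T` a point of order 2 with `x(T) = e`,
`θ(P) = ∏_{R ∈ N} (x(P + R) - e)`.  From
* `(M)`  `symF W u v e = ((u - e)(v - e) - d)²`,
* `(T)`  `(x(P + T) - e)(x(P) - e) = d`,
* `(RC)` `(θ A - θ B) H(x_A) = c ∏_{R ∈ N} (x_A - x(B + R))` (root counting, helper11),
we get
  `θ(A+B) θ(A-B) (θ A - θ B)² = (θ A θ B - d ^ #N)²`.
-/
import Fermat.Agent.Lib.Torsion.H11_Order

set_option autoImplicit false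

namespace Fermat.Agent.Lib.Torsion.H63

open WeierstrassCurve Fermat.Agent.Lib.Torsion.H11 Finset

variable {F : Type*} [Field F] [DecidableEq F] {W : Affine F}

/-- `θ_e(P) = ∏_{R ∈ N} (x(P + R) - e)`. -/
noncomputable def normTheta (W : Affine F) (N : AddSubgroup W.Point) [Fintype N] (e : F)
    (P : W.Point) : F :=
  ∏ R : N, (xc W (P + (R : W.Point)) - e)

/-- `D(x, B) = ∏_{R ∈ N} (x - x(B + R))`. -/
noncomputable def normD (W : Affine F) (N : AddSubgroup W.Point) [Fintype N] (x : F)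
    (B : W.Point) : F :=
  ∏ R : N, (x - xc W (B + (R : W.Point)))

variable (N : AddSubgroup W.Point) [Fintype N] (e : F)

theorem normTheta_add_mem (P : W.Point) {R₀ : W.Point} (h : R₀ ∈ N) :
    normTheta W N e (P + R₀) = normTheta W N e P := by
  unfold normTheta
  refine Fintype.prod_equiv (Equiv.addLeft (⟨R₀, h⟩ : N)) _ _ fun R => ?_
  simp [add_assoc]

theorem normTheta_sub_form (P : W.Point) :
    ∏ R : N, (xc W (P - (R : W.Point)) - e) = normTheta W N e P := by
  unfold normTheta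
  refine Fintype.prod_equiv (Equiv.neg N) _ _ fun R => ?_
  simp [sub_eq_add_neg]

theorem normTheta_neg (P : W.Point) : normTheta W N e (-P) = normTheta W N e P := by
  rw [← normTheta_sub_form N e P]
  unfold normTheta
  refine Finset.prod_congr rfl fun R _ => ?_
  rw [← xc_neg W (-P + (R : W.Point))]
  congr 2
  abel

theorem normD_add_mem (x : F) (B : W.Point) {R₀ : W.Point} (h : R₀ ∈ N) :
    normD W N x (B + R₀) = normD W N x B := by
  unfold normD
  refine Fintype.prod_equiv (Equiv.addLeft (⟨R₀, h⟩ : N)) _ _ fun R => ?_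
  simp [add_assoc]

omit [Fintype N] in
theorem add_ne_zero_of_not_mem {P : W.Point} (hP : P ∉ N) (R : N) : P + (R : W.Point) ≠ 0 := by
  intro h
  apply hP
  have : P = -(R : W.Point) := eq_neg_of_add_eq_zero_left h
  rw [this]
  exact N.neg_mem R.2

omit [Fintype N] in
theorem not_mem_of_two_nsmul_not_mem {B : W.Point} (hB : (2 : ℕ) • B ∉ N) : B ∉ N :=
  fun h => hB (N.nsmul_mem h 2)

omit [Fintype N] in
/-- If `A ± B ∉ N` then `x(A) ≠ x(B + R)` for `R ∈ N`. -/
theorem xc_ne_of_not_mem {A B : W.Point} (hA : A ∉ N) (hB : B ∉ N) (hp : A + B ∉ N)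
    (hm : A - B ∉ N) (R : N) : xc W A ≠ xc W (B + (R : W.Point)) := by
  intro h
  have hA0 : A ≠ 0 := fun h0 => hA (h0 ▸ N.zero_mem)
  rcases eq_or_eq_neg_of_xc_eq W hA0 (add_ne_zero_of_not_mem N hB R) h with h1 | h1
  · apply hm
    have : A - B = (R : W.Point) := by rw [h1]; abel
    rw [this]; exact R.2
  · apply hp
    have : A + B = -(R : W.Point) := by rw [h1]; abel
    rw [this]; exact N.neg_mem R.2

/-- Product of the x-only addition law over `N`. -/
theorem normTheta_mul_rel {d : F}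
    (hM : ∀ u v : F, symF W u v e = ((u - e) * (v - e) - d) ^ 2)
    {A B : W.Point} (hA : A ∉ N) (hB : B ∉ N) (hp : A + B ∉ N) (hm : A - B ∉ N) :
    normTheta W N e (A + B) * normTheta W N e (A - B) * normD W N (xc W A) B ^ 2 =
      (∏ R : N, ((xc W A - e) * (xc W (B + (R : W.Point)) - e) - d)) ^ 2 := by
  have hA0 : A ≠ 0 := fun h0 => hA (h0 ▸ N.zero_mem)
  have key : ∀ R : N, (xc W (A + B + (R : W.Point)) - e) *
      (xc W (A - B - (R : W.Point)) - e) * (xc W A - xc W (B + (R : W.Point))) ^ 2 =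
      ((xc W A - e) * (xc W (B + (R : W.Point)) - e) - d) ^ 2 := by
    intro R
    have := xc_add_rel W hA0 (add_ne_zero_of_not_mem N hB R) (xc_ne_of_not_mem N hA hB hp hm R) e
    rw [hM] at this
    rw [← this]
    congr 3
    · abel_nf
    · abel_nf
  rw [← normTheta_sub_form N e (A - B)]
  unfold normTheta normD
  rw [← Finset.prod_pow, ← Finset.prod_pow, ← Finset.prod_mul_distrib, ← Finset.prod_mul_distrib]
  exact Finset.prod_congr rfl fun R _ => key R

/-- Product of the translation formula over `N`. -/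
theorem prod_eq_normTheta_mul_normD {d : F} {T : W.Point}
    (hTr : ∀ P : W.Point, P ≠ 0 → P ≠ T → (xc W (P + T) - e) * (xc W P - e) = d)
    (hT2 : (2 : ℕ) • T = 0) {B : W.Point} (hB2 : (2 : ℕ) • B ∉ N) (x : F) :
    ∏ R : N, ((x - e) * (xc W (B + (R : W.Point)) - e) - d) =
      normTheta W N e B * normD W N x (B + T) := by
  have hB : B ∉ N := not_mem_of_two_nsmul_not_mem N hB2
  unfold normTheta normD
  rw [← Finset.prod_mul_distrib]
  refine Finset.prod_congr rfl fun R _ => ?_
  have hne : B + (R : W.Point) ≠ T := by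
    intro h
    apply hB2
    have h2 : (2 : ℕ) • (B + (R : W.Point)) = 0 := by rw [h, hT2]
    rw [nsmul_add] at h2
    have : (2 : ℕ) • B = -((2 : ℕ) • (R : W.Point)) := eq_neg_of_add_eq_zero_left h2
    rw [this]
    exact N.neg_mem (N.nsmul_mem R.2 2)
  have := hTr (B + (R : W.Point)) (add_ne_zero_of_not_mem N hB R) hne
  have e1 : B + T + (R : W.Point) = B + (R : W.Point) + T := by abel
  rw [e1]
  linear_combination this

/-- `θ(B) θ(B + T) = d ^ #N`. -/
theorem normTheta_mul_normTheta_add {d : F} {T : W.Point}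
    (hTr : ∀ P : W.Point, P ≠ 0 → P ≠ T → (xc W (P + T) - e) * (xc W P - e) = d)
    (hT2 : (2 : ℕ) • T = 0) {B : W.Point} (hB2 : (2 : ℕ) • B ∉ N) :
    normTheta W N e B * normTheta W N e (B + T) = d ^ Fintype.card N := by
  have hB : B ∉ N := not_mem_of_two_nsmul_not_mem N hB2
  unfold normTheta
  rw [← Finset.prod_mul_distrib, Fintype.card, ← Finset.prod_const]
  refine Finset.prod_congr rfl fun R _ => ?_
  have hne : B + (R : W.Point) ≠ T := by
    intro h
    apply hB2
    have h2 : (2 : ℕ) • (B + (R : W.Point)) = 0 := by rw [h, hT2]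
    rw [nsmul_add] at h2
    have : (2 : ℕ) • B = -((2 : ℕ) • (R : W.Point)) := eq_neg_of_add_eq_zero_left h2
    rw [this]
    exact N.neg_mem (N.nsmul_mem R.2 2)
  have := hTr (B + (R : W.Point)) (add_ne_zero_of_not_mem N hB R) hne
  have e1 : B + T + (R : W.Point) = B + (R : W.Point) + T := by abel
  rw [e1]
  linear_combination this

/-- **The norm relation** `θ(A+B) θ(A-B) (θ A - θ B)² = (θ A θ B - d ^ #N)²`. -/
theorem normTheta_rel {d c : F} {T : W.Point} (Hv : F → F)
    (hM : ∀ u v : F, symF W u v e = ((u - e) * (v - e) - d) ^ 2)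
    (hTr : ∀ P : W.Point, P ≠ 0 → P ≠ T → (xc W (P + T) - e) * (xc W P - e) = d)
    (hT2 : (2 : ℕ) • T = 0)
    (hRC : ∀ A B : W.Point, A ∉ N → (2 : ℕ) • B ∉ N →
      (normTheta W N e A - normTheta W N e B) * Hv (xc W A) = c * normD W N (xc W A) B)
    (hHv : ∀ A : W.Point, A ∉ N → Hv (xc W A) ≠ 0)
    {A B : W.Point} (hA : A ∉ N) (hB2 : (2 : ℕ) • B ∉ N) (hp : A + B ∉ N) (hm : A - B ∉ N) :
    normTheta W N e (A + B) * normTheta W N e (A - B) *
        (normTheta W N e A - normTheta W N e B) ^ 2 =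
      (normTheta W N e A * normTheta W N e B - d ^ Fintype.card N) ^ 2 := by
  have hB : B ∉ N := not_mem_of_two_nsmul_not_mem N hB2
  have hBT2 : (2 : ℕ) • (B + T) ∉ N := by
    rw [nsmul_add, hT2, add_zero]; exact hB2
  have h1 := normTheta_mul_rel N e hM hA hB hp hm
  rw [prod_eq_normTheta_mul_normD N e hTr hT2 hB2] at h1
  have h2 := hRC A B hA hB2
  have h3 := hRC A (B + T) hA hBT2
  have h4 := normTheta_mul_normTheta_add N e hTr hT2 hB2
  have hH := hHv A hA
  have hH2 : Hv (xc W A) ^ 2 ≠ 0 := pow_ne_zero 2 hH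
  apply mul_right_cancel₀ hH2
  rw [← h4]
  linear_combination (exp := 1)
    (normTheta W N e (A + B) * normTheta W N e (A - B)) *
      ((normTheta W N e A - normTheta W N e B) * Hv (xc W A) + c * normD W N (xc W A) B) * h2
    + c ^ 2 * h1
    - normTheta W N e B ^ 2 *
      ((normTheta W N e A - normTheta W N e (B + T)) * Hv (xc W A) +
        c * normD W N (xc W A) (B + T)) * h3

end Fermat.Agent.Lib.Torsion.H63
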