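/-
Cluster M / S12, piece HOM (helper63): torsion transfers to the explicit quotient curve.

Abstract form.  `W`, `W'` Weierstrass curves over a field, `N` a finite subgroup of `W.Point`,
`ξ : W.Point → F` ("`x'(φ P)`") with `ξ P - e'ᵢ = θ_{eᵢ}(P) / cᵢ` for two roots `e₀, e₁`.
If `P` is a point of `W` with `p • P = 0` and `k • P ∉ N` for `0 < k < p`, then every point
`Q'` of `W'` with `x(Q') = ξ P` which is not 2-torsion satisfies `p • Q' = 0`.

No homomorphism property of `φ` is used: only the x-only addition law (helper11's `symF`),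
the norm relation (`H63_NormRel`) and the ladder (`H63_Ladder`).
-/
import Fermat.Agent.Lib.Torsion.H63_Ladder
import Fermat.Agent.Lib.Torsion.H63_NormRel

set_option autoImplicit false

namespace Fermat.Agent.Lib.Torsion.H63

open WeierstrassCurve Fermat.Agent.Lib.Torsion.H11 Finset

variable {F : Type*} [Field F] [DecidableEq F] {W W' : Affine F}

/-- The data on `W` needed for one root `e`: the hypotheses of `normTheta_rel`. -/
structure RootData (W : Affine F) (N : AddSubgroup W.Point) [Fintype N] (e d c : F) : Prop where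
  c_ne : c ≠ 0
  symF_eq : ∀ u v : F, symF W u v e = ((u - e) * (v - e) - d) ^ 2
  exists_T : ∃ T : W.Point, (2 : ℕ) • T = 0 ∧
    ∀ P : W.Point, P ≠ 0 → P ≠ T → (xc W (P + T) - e) * (xc W P - e) = d
  exists_H : ∃ Hv : F → F, (∀ A : W.Point, A ∉ N → Hv (xc W A) ≠ 0) ∧
    ∀ A B : W.Point, A ∉ N → (2 : ℕ) • B ∉ N →
      (normTheta W N e A - normTheta W N e B) * Hv (xc W A) = c * normD W N (xc W A) B

namespace RootData

variable {N : AddSubgroup W.Point} [Fintype N] {e d c : F}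

/-- The norm relation. -/
theorem rel (D : RootData W N e d c) {A B : W.Point} (hA : A ∉ N) (hB2 : (2 : ℕ) • B ∉ N)
    (hp : A + B ∉ N) (hm : A - B ∉ N) :
    normTheta W N e (A + B) * normTheta W N e (A - B) *
        (normTheta W N e A - normTheta W N e B) ^ 2 =
      (normTheta W N e A * normTheta W N e B - d ^ Fintype.card N) ^ 2 := by
  obtain ⟨T, hT2, hTr⟩ := D.exists_T
  obtain ⟨Hv, hHv, hRC⟩ := D.exists_H
  exact normTheta_rel N e Hv D.symF_eq hTr hT2 hRC hHv hA hB2 hp hm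

/-- `θ` separates `A` and `B` when `A ± B ∉ N`. -/
theorem normTheta_ne (D : RootData W N e d c) {A B : W.Point} (hA : A ∉ N)
    (hB2 : (2 : ℕ) • B ∉ N) (hp : A + B ∉ N) (hm : A - B ∉ N) :
    normTheta W N e A ≠ normTheta W N e B := by
  obtain ⟨Hv, hHv, hRC⟩ := D.exists_H
  intro h
  have hB : B ∉ N := not_mem_of_two_nsmul_not_mem N hB2
  have h1 := hRC A B hA hB2
  rw [h, sub_self, zero_mul] at h1
  have h2 : normD W N (xc W A) B = 0 := by
    rcases mul_eq_zero.mp h1.symm with h3 | h3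
    · exact absurd h3 D.c_ne
    · exact h3
  unfold normD at h2
  rw [Finset.prod_eq_zero_iff] at h2
  obtain ⟨R, -, hR⟩ := h2
  exact xc_ne_of_not_mem N hA hB hp hm R (sub_eq_zero.mp hR)

end RootData

omit [DecidableEq F] in
/-- A polynomial of degree `≤ 1` in `t` vanishing at two distinct points vanishes. -/
theorem affine_eq_zero_of_two {α δ t₀ t₁ : F} (h0 : α * t₀ + δ = 0) (h1 : α * t₁ + δ = 0)
    (hne : t₀ ≠ t₁) : α = 0 ∧ δ = 0 := by
  have hα : α * (t₀ - t₁) = 0 := by linear_combination h0 - h1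
  have hα0 : α = 0 := by
    rcases mul_eq_zero.mp hα with h | h
    · exact h
    · exact absurd (sub_eq_zero.mp h) hne
  refine ⟨hα0, ?_⟩
  rw [hα0, zero_mul, zero_add] at h0
  exact h0

/-- The x-only addition law of `W'` in all `t`, from its values at two roots. -/
theorem symF_rel_of_two {u v sp sm t₀ t₁ : F} (hne : t₀ ≠ t₁)
    (h0 : (sp - t₀) * (sm - t₀) * (u - v) ^ 2 = symF W' u v t₀)
    (h1 : (sp - t₁) * (sm - t₁) * (u - v) ^ 2 = symF W' u v t₁) (t : F) :
    (sp - t) * (sm - t) * (u - v) ^ 2 = symF W' u v t := by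
  rw [symF_expand] at h0 h1 ⊢
  set β := 2 * u * v * (u + v) + W'.b₂ * u * v + W'.b₄ * (u + v) + W'.b₆ with hβ
  set γ := u ^ 2 * v ^ 2 - W'.b₄ * u * v - W'.b₆ * (u + v) - W'.b₈ with hγ
  have e0 : (β - (sp + sm) * (u - v) ^ 2) * t₀ + (sp * sm * (u - v) ^ 2 - γ) = 0 := by
    linear_combination h0
  have e1 : (β - (sp + sm) * (u - v) ^ 2) * t₁ + (sp * sm * (u - v) ^ 2 - γ) = 0 := by
    linear_combination h1
  obtain ⟨ha, hd⟩ := affine_eq_zero_of_two e0 e1 hne
  linear_combination ha * t + hd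

/-- **HOM, abstract form** (the formula for `ξ` is only needed at the multiples of `P`). -/
theorem smul_eq_zero_of_normTheta_on (N : AddSubgroup W.Point) [Fintype N]
    {e₀ d₀ c₀ e₁ d₁ c₁ e₀' e₁' : F}
    (D₀ : RootData W N e₀ d₀ c₀) (D₁ : RootData W N e₁ d₁ c₁)
    (hM₀ : ∀ u v : F, symF W' u v e₀' =
      ((u - e₀') * (v - e₀') - d₀ ^ Fintype.card N / c₀ ^ 2) ^ 2)
    (hM₁ : ∀ u v : F, symF W' u v e₁' =
      ((u - e₁') * (v - e₁') - d₁ ^ Fintype.card N / c₁ ^ 2) ^ 2)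
    (hne' : e₀' ≠ e₁')
    (ξ : W.Point → F)
    (p : ℕ) (hp : 4 ≤ p) (P : W.Point) (hP : p • P = 0)
    (hPN : ∀ k, 0 < k → k < p → k • P ∉ N)
    (hξ₀ : ∀ k, 0 < k → k < p → ξ (k • P) = e₀' + normTheta W N e₀ (k • P) / c₀)
    (hξ₁ : ∀ k, 0 < k → k < p → ξ (k • P) = e₁' + normTheta W N e₁ (k • P) / c₁)
    {y' : F} (h' : W'.Nonsingular (ξ P) y') (hy' : y' ≠ W'.negY (ξ P) y') :
    p • Affine.Point.some (ξ P) y' h' = 0 := by
  have hc₀ := D₀.c_ne
  have hc₁ := D₁.c_ne
  -- the relation at one root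
  have rel_at : ∀ {e d c e' : F} (D : RootData W N e d c)
      (hM : ∀ u v : F, symF W' u v e' = ((u - e') * (v - e') - d ^ Fintype.card N / c ^ 2) ^ 2)
      (hξ : ∀ k, 0 < k → k < p → ξ (k • P) = e' + normTheta W N e (k • P) / c)
      (k : ℕ), 2 ≤ k → k + 2 ≤ p →
      (ξ ((k + 1) • P) - e') * (ξ ((k - 1) • P) - e') * (ξ (k • P) - ξ (1 • P)) ^ 2 =
        symF W' (ξ (k • P)) (ξ (1 • P)) e' := by
    intro e d c e' D hM hξ k hk2 hkp
    have hc := D.c_ne
    have hA : k • P ∉ N := hPN k (by omega) (by omega)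
    have hB : (1 : ℕ) • P ∉ N := hPN 1 (by omega) (by omega)
    have hB2 : (2 : ℕ) • ((1 : ℕ) • P) ∉ N := by
      rw [one_nsmul]; exact hPN 2 (by omega) (by omega)
    have hadd : k • P + (1 : ℕ) • P = (k + 1) • P := by rw [add_nsmul]
    have hsub : k • P - (1 : ℕ) • P = (k - 1) • P := by
      have : k • P = (k - 1) • P + (1 : ℕ) • P := by rw [← add_nsmul]; congr 1; omega
      rw [this, add_sub_cancel_right]
    have hp' : k • P + (1 : ℕ) • P ∉ N := by rw [hadd]; exact hPN _ (by omega) (by omega)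
    have hm' : k • P - (1 : ℕ) • P ∉ N := by rw [hsub]; exact hPN _ (by omega) (by omega)
    have key := D.rel hA hB2 hp' hm'
    rw [hadd, hsub] at key
    rw [hM, hξ (k + 1) (by omega) (by omega), hξ (k - 1) (by omega) (by omega),
      hξ k (by omega) (by omega), hξ 1 (by omega) (by omega)]
    field_simp
    linear_combination key
  have hrel : ∀ k, 2 ≤ k → k + 2 ≤ p → ∀ t : F,
      (ξ ((k + 1) • P) - t) * (ξ ((k - 1) • P) - t) * (ξ (k • P) - ξ (1 • P)) ^ 2 =
        symF W' (ξ (k • P)) (ξ (1 • P)) t := by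
    intro k hk2 hkp t
    exact symF_rel_of_two hne' (rel_at D₀ hM₀ hξ₀ k hk2 hkp) (rel_at D₁ hM₁ hξ₁ k hk2 hkp) t
  have hne : ∀ k, 2 ≤ k → k + 2 ≤ p → ξ (k • P) ≠ ξ (1 • P) := by
    intro k hk2 hkp h
    have hA : k • P ∉ N := hPN k (by omega) (by omega)
    have hB : (1 : ℕ) • P ∉ N := hPN 1 (by omega) (by omega)
    have hB2 : (2 : ℕ) • ((1 : ℕ) • P) ∉ N := by
      rw [one_nsmul]; exact hPN 2 (by omega) (by omega)
    have hadd : k • P + (1 : ℕ) • P = (k + 1) • P := by rw [add_nsmul]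
    have hsub : k • P - (1 : ℕ) • P = (k - 1) • P := by
      have : k • P = (k - 1) • P + (1 : ℕ) • P := by rw [← add_nsmul]; congr 1; omega
      rw [this, add_sub_cancel_right]
    have hp' : k • P + (1 : ℕ) • P ∉ N := by rw [hadd]; exact hPN _ (by omega) (by omega)
    have hm' : k • P - (1 : ℕ) • P ∉ N := by rw [hsub]; exact hPN _ (by omega) (by omega)
    apply D₀.normTheta_ne hA hB2 hp' hm'
    rw [hξ₀ k (by omega) (by omega), hξ₀ 1 (by omega) (by omega)] at h
    have := add_left_cancel h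
    field_simp at this
    exact this
  have hlast : ξ ((p - 1) • P) = ξ (1 • P) := by
    have h1 : (p - 1) • P = -P := by
      apply eq_neg_of_add_eq_zero_left
      have : (p - 1) • P + P = p • P := by
        conv_rhs => rw [show p = (p - 1) + 1 by omega, succ_nsmul]
      rw [this, hP]
    have hB : (1 : ℕ) • P ∉ N := hPN 1 (by omega) (by omega)
    have hA : (p - 1) • P ∉ N := hPN (p - 1) (by omega) (by omega)
    rw [hξ₀ (p - 1) (by omega) (by omega), hξ₀ 1 (by omega) (by omega), h1, normTheta_neg,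
      one_nsmul]
  have hx1 : ξ (1 • P) = ξ P := by rw [one_nsmul]
  exact smul_eq_zero_of_ladder W' h' hy' p hp (fun k => ξ (k • P)) hx1
    (fun k hk hkp => hne k hk hkp) (fun k hk hkp t => hrel k hk hkp t) hlast

/-- **HOM, abstract form.** -/
theorem smul_eq_zero_of_normTheta (N : AddSubgroup W.Point) [Fintype N]
    {e₀ d₀ c₀ e₁ d₁ c₁ e₀' e₁' : F}
    (D₀ : RootData W N e₀ d₀ c₀) (D₁ : RootData W N e₁ d₁ c₁)
    (hM₀ : ∀ u v : F, symF W' u v e₀' =
      ((u - e₀') * (v - e₀') - d₀ ^ Fintype.card N / c₀ ^ 2) ^ 2)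
    (hM₁ : ∀ u v : F, symF W' u v e₁' =
      ((u - e₁') * (v - e₁') - d₁ ^ Fintype.card N / c₁ ^ 2) ^ 2)
    (hne' : e₀' ≠ e₁')
    (ξ : W.Point → F)
    (hξ₀ : ∀ P : W.Point, P ∉ N → ξ P = e₀' + normTheta W N e₀ P / c₀)
    (hξ₁ : ∀ P : W.Point, P ∉ N → ξ P = e₁' + normTheta W N e₁ P / c₁)
    (p : ℕ) (hp : 4 ≤ p) (P : W.Point) (hP : p • P = 0)
    (hPN : ∀ k, 0 < k → k < p → k • P ∉ N)
    {y' : F} (h' : W'.Nonsingular (ξ P) y') (hy' : y' ≠ W'.negY (ξ P) y') :
    p • Affine.Point.some (ξ P) y' h' = 0 :=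
  smul_eq_zero_of_normTheta_on N D₀ D₁ hM₀ hM₁ hne' ξ p hp P hP hPN
    (fun k h0 hk => hξ₀ _ (hPN k h0 hk)) (fun k h0 hk => hξ₁ _ (hPN k h0 hk)) h' hy'

/-- The constant `c` of `RootData` may be rescaled. -/
theorem RootData.rescale {N : AddSubgroup W.Point} [Fintype N] {e d c : F}
    (D : RootData W N e d c) {c' : F} (hc' : c' ≠ 0) : RootData W N e d c' := by
  obtain ⟨Hv, hHv, hRC⟩ := D.exists_H
  refine ⟨hc', D.symF_eq, D.exists_T, fun x => Hv x * (c' / c), fun A hA => ?_, fun A B hA hB => ?_⟩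
  · exact mul_ne_zero (hHv A hA) (div_ne_zero hc' D.c_ne)
  · have h := hRC A B hA hB
    have hc := D.c_ne
    calc (normTheta W N e A - normTheta W N e B) * (Hv (xc W A) * (c' / c))
        = ((normTheta W N e A - normTheta W N e B) * Hv (xc W A)) * (c' / c) := by ring
      _ = c * normD W N (xc W A) B * (c' / c) := by rw [h]
      _ = c' * normD W N (xc W A) B := by field_simp

end Fermat.Agent.Lib.Torsion.H63
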