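/-
Cluster M / S12, piece HOM (helper63): the point of order two `T = (e, -(a₁ e + a₃)/2)` of a
general Weierstrass curve whose 2-division polynomial is `4 (x - e)(x - e')(x - e'')`, and the
translation formula `(x(P + T) - e)(x(P) - e) = (e - e')(e - e'')`.
-/
import Fermat.Agent.Lib.Torsion.H11_Order

set_option autoImplicit false

namespace Fermat.Agent.Lib.Torsion.H63

open WeierstrassCurve Fermat.Agent.Lib.Torsion.H11

variable {F : Type*} [Field F] {W : Affine F}

/-- `Ψ₂² = 4 (x - e)(x - e')(x - e'')` and `2 ≠ 0`.  (Same fields as helper11's `TwoTors`.) -/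
structure TTHyp (W : Affine F) (e e' e'' : F) : Prop where
  two_ne : (2 : F) ≠ 0
  hb2 : W.b₂ = -4 * (e + e' + e'')
  hb4 : W.b₄ = 2 * (e * e' + e * e'' + e' * e'')
  hb6 : W.b₆ = -4 * (e * e' * e'')

namespace TTHyp

variable {e e' e'' : F} (H : TTHyp W e e' e'')
include H

/-- `d = (e - e')(e - e'')`. -/
theorem psi2sq_eq (x : F) : psi2sq W x = 4 * ((x - e) * (x - e') * (x - e'')) := by
  simp only [psi2sq, H.hb2, H.hb4, H.hb6]
  ring

/-- The curve equation in the form `(2y + a₁x + a₃)² = 4 (x - e)(x - e')(x - e'')`. -/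
theorem equation_iff' (x y : F) :
    W.Equation x y ↔ (2 * y + W.a₁ * x + W.a₃) ^ 2 = 4 * ((x - e) * (x - e') * (x - e'')) := by
  rw [← H.psi2sq_eq, Affine.equation_iff]
  simp only [psi2sq, WeierstrassCurve.b₂, WeierstrassCurve.b₄, WeierstrassCurve.b₆]
  have h4 : (4 : F) ≠ 0 := by
    have : (4 : F) = 2 * 2 := by norm_num
    rw [this]; exact mul_ne_zero H.two_ne H.two_ne
  constructor
  · intro h
    linear_combination 4 * h
  · intro h
    apply mul_left_cancel₀ h4
    linear_combination h

/-- The biquadratic form at the root `e` is a square. -/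
theorem symF_root (u v : F) :
    symF W u v e = ((u - e) * (v - e) - (e - e') * (e - e'')) ^ 2 := by
  have h4 : (4 : F) ≠ 0 := by
    have : (4 : F) = 2 * 2 := by norm_num
    rw [this]; exact mul_ne_zero H.two_ne H.two_ne
  have hb := W.b_relation
  have hb8 : W.b₈ = 4 * (e + e' + e'') * (e * e' * e'') - (e * e' + e * e'' + e' * e'') ^ 2 := by
    apply mul_left_cancel₀ h4
    rw [hb, H.hb2, H.hb4, H.hb6]
    ring
  simp only [symF, H.hb2, H.hb4, H.hb6, hb8]
  ring

/-- The `y`-coordinate of `T`. -/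
noncomputable def yT (_H : TTHyp W e e' e'') : F := -(W.a₁ * e + W.a₃) / 2

theorem two_mul_yT : 2 * H.yT + W.a₁ * e + W.a₃ = 0 := by
  have := H.two_ne
  unfold yT
  field_simp
  ring

theorem equation_T : W.Equation e H.yT := by
  rw [H.equation_iff', H.two_mul_yT]
  ring

/-- `b₂ = a₁² + 4a₂` etc. give `3e² + 2a₂e + a₄ - a₁ y_T = (e - e')(e - e'')`. -/
theorem polynomialX_T : 3 * e ^ 2 + 2 * W.a₂ * e + W.a₄ - W.a₁ * H.yT = (e - e') * (e - e'') := by
  have h2 := H.two_ne
  have h4 : (4 : F) ≠ 0 := by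
    have : (4 : F) = 2 * 2 := by norm_num
    rw [this]; exact mul_ne_zero h2 h2
  have hy := H.two_mul_yT
  have hb2 := H.hb2
  have hb4 := H.hb4
  simp only [WeierstrassCurve.b₂, WeierstrassCurve.b₄] at hb2 hb4
  apply mul_left_cancel₀ h4
  linear_combination 2 * e * hb2 + 2 * hb4 + (-2 * W.a₁) * hy

theorem nonsingular_T (hd : (e - e') * (e - e'') ≠ 0) : W.Nonsingular e H.yT := by
  rw [Affine.nonsingular_iff]
  refine ⟨H.equation_T, Or.inl ?_⟩
  intro h
  apply hd
  rw [← H.polynomialX_T]
  linear_combination -h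

/-- The point `T` of order two with `x(T) = e`. -/
noncomputable def pointT (hd : (e - e') * (e - e'') ≠ 0) : W.Point :=
  Affine.Point.some e H.yT (H.nonsingular_T hd)

theorem xc_pointT (hd : (e - e') * (e - e'') ≠ 0) : xc W (H.pointT hd) = e := rfl

theorem negY_T : W.negY e H.yT = H.yT := by
  have := H.two_mul_yT
  simp only [Affine.negY]
  linear_combination -this

variable [DecidableEq F]

theorem two_nsmul_pointT (hd : (e - e') * (e - e'') ≠ 0) : (2 : ℕ) • H.pointT hd = 0 := by
  rw [two_nsmul]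
  exact Affine.Point.add_self_of_Y_eq H.negY_T.symm

/-- Translation by `T`. -/
theorem xc_add_pointT (hd : (e - e') * (e - e'') ≠ 0) {P : W.Point} (hP : P ≠ 0)
    (hPT : P ≠ H.pointT hd) :
    (xc W (P + H.pointT hd) - e) * (xc W P - e) = (e - e') * (e - e'') := by
  cases P with
  | zero => exact absurd rfl hP
  | some x y h =>
    have hx : x ≠ e := by
      intro hxe
      subst hxe
      apply hPT
      have hy := (H.equation_iff' x y).mp h.1
      rw [sub_self, zero_mul, zero_mul, mul_zero] at hy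
      have hy0 : 2 * y + W.a₁ * x + W.a₃ = 0 := by simpa using hy
      have hyT := H.two_mul_yT
      have : y = H.yT := by
        apply mul_left_cancel₀ H.two_ne
        linear_combination hy0 - hyT
      subst this
      rfl
    have hxe : x - e ≠ 0 := sub_ne_zero.mpr hx
    have h2 := H.two_ne
    simp only [pointT, xc_some]
    rw [Affine.Point.add_of_X_ne hx, xc_some, Affine.slope_of_X_ne hx]
    simp only [Affine.addX]
    have hy := (H.equation_iff' x y).mp h.1
    have hyT := H.two_mul_yT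
    have hb2 := H.hb2
    simp only [WeierstrassCurve.b₂] at hb2
    have h4 : (4 : F) ≠ 0 := by
      have : (4 : F) = 2 * 2 := by norm_num
      rw [this]; exact mul_ne_zero h2 h2
    have key : (y - H.yT) ^ 2 + W.a₁ * (y - H.yT) * (x - e) - (W.a₂ + x + 2 * e) * (x - e) ^ 2 =
        (e - e') * (e - e'') * (x - e) := by
      apply mul_left_cancel₀ h4
      linear_combination hy + (-(x - e) ^ 2) * hb2 +
        ((2 * H.yT + W.a₁ * e + W.a₃) - 2 * (2 * y + W.a₁ * x + W.a₃)) * hyT
    have e1 : ((y - H.yT) / (x - e)) ^ 2 + W.a₁ * ((y - H.yT) / (x - e)) - W.a₂ - x - e - e =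
        ((y - H.yT) ^ 2 + W.a₁ * (y - H.yT) * (x - e) - (W.a₂ + x + 2 * e) * (x - e) ^ 2) /
          (x - e) ^ 2 := by
      field_simp
      ring
    rw [e1, key]
    field_simp

end TTHyp

end Fermat.Agent.Lib.Torsion.H63
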